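/-
S33 / piece EIG, core EIG-A (helper152) — "ordinary from coinvariants", pure algebra.

Setting: `ρ : G → GL(V)`, `V` free of rank 2 over a ring `T` with `T[G] → End_T V` onto,
`ψ : T → O` a point with values in a domain `O` with `2 ≠ 0`, `M` a finite free `O`-module with an
action `ρM` of `G` on which every `g` satisfies the characteristic polynomial of `ρ g` specialised
along `ψ`; `I, D ≤ G` with `D` normalising `I`.

`eigA_ord`: if the `I`-coinvariants of `M ⊗ Frac O` are NOT zero (no `a ≠ 0` with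
`a M ⊆ I_aug M`), then for `σ₁, σ ∈ I`, `τ ∈ D`, on `M`:

  `(σ₁ - det ρ(σ₁)) (σ - 1) = 0`   and   `(σ₁ - det ρ(σ₁)) τ (σ₁ - 1) = 0`.

Proof: Boston–Lenstra–Ribet over `K = Frac O` (landed `Lib.Ribet.H223.blr_exists_algHom`) gives an
algebra homomorphism `Ψ : End(K²) → End(M_K)` with `Ψ (ρ g) = ρM g`.  `W := I_aug K²` is not
everything (else `1 ∈ ∑ (ρσ - 1) End(K²)` and `M_K = I_aug M_K`), is `D`-stable, and `I` acts on it
through `det` (triangular form in dimension 2).  The two identities hold in `End(K²)`; apply `Ψ`.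
-/
import Mathlib
import Fermat.Agent.Lib.Ribet.H223.BLRCore
import Fermat.Agent.S32.H152.EmbCoord

set_option autoImplicit false
set_option linter.unusedSectionVars false

noncomputable section

namespace Fermat.Agent.S33.H152

open Matrix Fermat.Agent.Lib.Ribet.H223 Fermat.Agent.S32.H152

/-- The augmentation submodule `I_aug M = ⟨σ m - m : σ ∈ I⟩`. -/
def eigAug {O M G : Type*} [CommRing O] [AddCommGroup M] [Module O M] [Group G]
    (ρM : G →* Module.End O M) (I : Subgroup G) : Submodule O M :=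
  Submodule.span O {x | ∃ σ ∈ I, ∃ m : M, x = ρM σ m - m}

theorem eigAug_mem {O M G : Type*} [CommRing O] [AddCommGroup M] [Module O M] [Group G]
    (ρM : G →* Module.End O M) (I : Subgroup G) {σ : G} (hσ : σ ∈ I) (m : M) :
    ρM σ m - m ∈ eigAug ρM I :=
  Submodule.subset_span ⟨σ, hσ, m, rfl⟩

section Det

variable {R K : Type*} [CommRing R] [Field K] (f : R →+* K) {n : Type*} [Fintype n]
  [DecidableEq n] {V : Type*} [AddCommGroup V] [Module R V] (b : Module.Basis n R V)

theorem eigA_embEnd_det (E : Module.End R V) :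
    LinearMap.det (embEnd f b E) = f (LinearMap.det E) := by
  rw [embEnd_eq, LinearMap.det_toLin', ← LinearMap.det_toMatrix b]
  exact (RingHom.map_det f _).symm

theorem eigA_embEnd_injective (hf : Function.Injective f) :
    Function.Injective (embEnd f b : Module.End R V → Module.End K (n → K)) := by
  intro E E' h
  apply b.ext
  intro i
  apply embCoord_injective f b hf
  rw [← embEnd_coord, ← embEnd_coord, h]

/-- The base change of a representation, in coordinates. -/
def eigBase {G : Type*} [Group G] (ρ : G →* Module.End R V) : G →* Module.End K (n → K) :=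
  (embEnd f b).toMonoidHom.comp ρ

theorem eigBase_apply {G : Type*} [Group G] (ρ : G →* Module.End R V) (g : G) :
    eigBase f b ρ g = embEnd f b (ρ g) := rfl

end Det


section BLR

variable {T : Type*} [CommRing T] {V : Type*} [AddCommGroup V] [Module T V]
  (b : Module.Basis (Fin 2) T V) {G : Type*} [Group G] (ρ : G →* Module.End T V)
  {O : Type*} [CommRing O] [IsDomain O] (ψ : T →+* O)
  {M : Type*} [AddCommGroup M] [Module O M] {κ : Type*} [Fintype κ] [DecidableEq κ]
  (c : Module.Basis κ O M) (ρM : G →* Module.End O M) (dT : G →* T)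

/-- `ψ` followed by `O → Frac O`. -/
def eigF : T →+* FractionRing O := (algebraMap O (FractionRing O)).comp ψ

/-- Boston–Lenstra–Ribet in coordinates over `K = Frac O`. -/
theorem eigA_exists_algHom [Nonempty κ] (h2 : (2 : O) ≠ 0)
    (hspan : Submodule.span T (Set.range ρ) = ⊤)
    (hrel : ∀ g, ρM g * ρM g - ψ (LinearMap.trace T V (ρ g)) • ρM g
      + ψ (dT g) • (1 : Module.End O M) = 0) :
    ∃ Ψ : Module.End (FractionRing O) (Fin 2 → FractionRing O) →ₐ[FractionRing O]
        Module.End (FractionRing O) (κ → FractionRing O),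
      ∀ g, Ψ (embEnd (eigF ψ) b (ρ g)) = embEnd (algebraMap O (FractionRing O)) c (ρM g) := by
  classical
  set K := FractionRing O with hK
  set ι : O →+* K := algebraMap O K with hιdef
  have hι : Function.Injective ι := IsFractionRing.injective O K
  set f : T →+* K := eigF ψ with hf
  set ρ₀ : G →* Module.End K (Fin 2 → K) :=
    ((embEnd f b : Module.End T V →+* _) : Module.End T V →* _).comp ρ with hρ₀
  set π : G →* Module.End K (κ → K) :=
    ((embEnd ι c : Module.End O M →+* _) : Module.End O M →* _).comp ρM with hπdef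
  set d : G →* K := ((f : T →* K)).comp dT with hd
  have hρ₀g : ∀ g, ρ₀ g = embEnd f b (ρ g) := fun g => rfl
  have hπg : ∀ g, π g = embEnd ι c (ρM g) := fun g => rfl
  have hdg : ∀ g, d g = f (dT g) := fun g => rfl
  have hK2 : (2 : K) ≠ 0 := by
    intro h0
    apply h2
    apply hι
    rw [map_zero, map_ofNat]
    exact h0
  have hfin2 : Module.finrank K (Fin 2 → K) = 2 := by simp
  have hsurj : Function.Surjective (MonoidAlgebra.lift K (Module.End K (Fin 2 → K)) G ρ₀) := by
    set A₀ := (MonoidAlgebra.lift K (Module.End K (Fin 2 → K)) G ρ₀).range with hA₀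
    have hg : ∀ g, ρ₀ g ∈ A₀ := fun g =>
      ⟨MonoidAlgebra.of K G g, MonoidAlgebra.lift_of _ _⟩
    have hall : ∀ E : Module.End T V, embEnd f b E ∈ A₀ := by
      intro E
      have hE : E ∈ Submodule.span T (Set.range ρ) := by
        rw [hspan]
        exact Submodule.mem_top
      induction hE using Submodule.span_induction with
      | mem x hx =>
        obtain ⟨g, rfl⟩ := hx
        exact hg g
      | zero =>
        rw [map_zero]
        exact zero_mem _
      | add x y _ _ hx hy =>
        rw [map_add]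
        exact add_mem hx hy
      | smul t x _ hx =>
        rw [embEnd_smul]
        exact Subalgebra.smul_mem _ hx _
    intro y
    have hy : y ∈ A₀ := by
      obtain ⟨Y, rfl⟩ := (Matrix.toLinAlgEquiv' : Matrix (Fin 2) (Fin 2) K ≃ₐ[K] _).surjective y
      rw [Matrix.matrix_eq_sum_single Y]
      simp only [map_sum]
      refine Subalgebra.sum_mem _ fun i _ => Subalgebra.sum_mem _ fun j _ => ?_
      have e1 : (Matrix.single i j (Y i j) : Matrix (Fin 2) (Fin 2) K)
          = Y i j • Matrix.single i j (1 : K) := by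
        rw [Matrix.smul_single, smul_eq_mul, mul_one]
      rw [e1, map_smul]
      refine Subalgebra.smul_mem _ ?_ _
      have e2 := embEnd_single f b i j
      have e3 : (Matrix.toLinAlgEquiv' : Matrix (Fin 2) (Fin 2) K ≃ₐ[K] _)
          (Matrix.single i j (1 : K)) = Matrix.toLin' (Matrix.single i j (1 : K)) := rfl
      rw [e3, ← e2]
      exact hall _
    exact hy
  have hπ : ∀ g, π g * π g - LinearMap.trace K (Fin 2 → K) (ρ₀ g) • π g + d g • 1 = 0 := by
    intro g
    have h := congrArg (embEnd ι c) (hrel g)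
    rw [map_zero, map_add, map_sub, map_mul, embEnd_smul, embEnd_smul, map_one] at h
    rw [hπg, hρ₀g, embEnd_trace, hdg]
    exact h
  obtain ⟨Ψ, -, hΨg⟩ := blr_exists_algHom hK2 ρ₀ π d (LinearMap.trace K (Fin 2 → K)) hπ hsurj
    (exists_commutator_sq_eq_one hfin2)
  exact ⟨Ψ, hΨg⟩

end BLR

/-! ### Lines in `K²` -/

section Line

variable {K : Type*} [Field K]

/-- If `A - 1` has image in the line `K w₀`, then `A` acts on `w₀` through `det A`. -/
theorem eigA_line (A : Module.End K (Fin 2 → K)) (w₀ : Fin 2 → K)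
    (h : ∀ x, ∃ c : K, A x - x = c • w₀) : A w₀ = LinearMap.det A • w₀ := by
  classical
  choose φ hφ using fun j : Fin 2 => h (Pi.single j 1)
  have hM : LinearMap.toMatrix' A = 1 + Matrix.vecMulVec w₀ φ := by
    ext i j
    rw [LinearMap.toMatrix'_apply]
    have := congrFun (hφ j) i
    simp only [Pi.sub_apply, Pi.smul_apply, smul_eq_mul] at this
    rw [Matrix.add_apply, Matrix.vecMulVec_apply, Matrix.one_apply]
    have h1 : (Pi.single j (1:K) : Fin 2 → K) i = if i = j then 1 else 0 := by
      rw [Pi.single_apply]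
    rw [h1] at this
    linear_combination this
  have hdet : LinearMap.det A = 1 + (φ 0 * w₀ 0 + φ 1 * w₀ 1) := by
    rw [← LinearMap.det_toMatrix', hM, Matrix.det_fin_two]
    simp only [Matrix.add_apply, Matrix.vecMulVec_apply, Matrix.one_apply]
    simp
    ring
  have hA : A w₀ = (LinearMap.toMatrix' A) *ᵥ w₀ := by
    rw [LinearMap.toMatrix'_mulVec]
  rw [hA, hM, hdet]
  funext i
  fin_cases i
  · simp [Matrix.mulVec, dotProduct, Fin.sum_univ_two, Matrix.vecMulVec_apply]
    ring
  · simp [Matrix.mulVec, dotProduct, Fin.sum_univ_two, Matrix.vecMulVec_apply]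
    ring

variable {G : Type*} [Group G] (ρ₀ : G →* Module.End K (Fin 2 → K)) (I D : Subgroup G)

/-- The augmentation submodule is stable under a subgroup normalising `I`. -/
theorem eigAug_stable {O M : Type*} [CommRing O] [AddCommGroup M] [Module O M]
    (ρM : G →* Module.End O M)
    (hnorm : ∀ τ ∈ D, ∀ σ ∈ I, τ * σ * τ⁻¹ ∈ I) {τ : G} (hτ : τ ∈ D) {w : M}
    (hw : w ∈ eigAug ρM I) : ρM τ w ∈ eigAug ρM I := by
  induction hw using Submodule.span_induction with
  | mem x hx =>
    obtain ⟨σ, hσ, y, rfl⟩ := hx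
    have h1 : ρM τ (ρM σ y - y) = ρM (τ * σ * τ⁻¹) (ρM τ y) - ρM τ y := by
      rw [map_sub, ← Module.End.mul_apply, ← Module.End.mul_apply, ← map_mul, ← map_mul]
      congr 3
      group
    rw [h1]
    exact eigAug_mem ρM I (hnorm τ hτ σ hσ) _
  | zero =>
    rw [map_zero]
    exact zero_mem _
  | add x y _ _ hx hy =>
    rw [map_add]
    exact add_mem hx hy
  | smul t x _ hx =>
    rw [map_smul]
    exact Submodule.smul_mem _ _ hx

/-- The two ordinarity identities in `End (K²)` when the `I`-coinvariants are not zero. -/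
theorem eigA_identities (hnorm : ∀ τ ∈ D, ∀ σ ∈ I, τ * σ * τ⁻¹ ∈ I)
    (hW : eigAug ρ₀ I ≠ ⊤) {σ₁ σ τ : G} (hσ₁ : σ₁ ∈ I) (hσ : σ ∈ I) (hτ : τ ∈ D) :
    (ρ₀ σ₁ - LinearMap.det (ρ₀ σ₁) • (1 : Module.End K (Fin 2 → K))) * (ρ₀ σ - 1) = 0 ∧
    (ρ₀ σ₁ - LinearMap.det (ρ₀ σ₁) • (1 : Module.End K (Fin 2 → K))) * ρ₀ τ * (ρ₀ σ₁ - 1) = 0 := by
  classical
  have hlt : Module.finrank K ↥(eigAug ρ₀ I) < 2 := by
    have h := Submodule.finrank_lt hW
    simpa using h
  have hle : Module.finrank K ↥(eigAug ρ₀ I) ≤ 1 := by omega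
  obtain ⟨⟨w₀, hw₀⟩, hgen⟩ := finrank_le_one_iff.mp hle
  have hmem : ∀ w ∈ eigAug ρ₀ I, ∃ c : K, w = c • w₀ := by
    intro w hw
    obtain ⟨c, hc⟩ := hgen ⟨w, hw⟩
    refine ⟨c, ?_⟩
    have := congrArg Subtype.val hc
    simpa using this.symm
  have hline : ∀ σ' ∈ I, ∀ x, ∃ c : K, ρ₀ σ' x - x = c • w₀ := fun σ' hσ' x =>
    hmem _ (eigAug_mem ρ₀ I hσ' x)
  have hkill : ∀ w ∈ eigAug ρ₀ I,
      (ρ₀ σ₁ - LinearMap.det (ρ₀ σ₁) • (1 : Module.End K (Fin 2 → K))) w = 0 := by
    intro w hw
    obtain ⟨c, rfl⟩ := hmem w hw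
    rw [map_smul, LinearMap.sub_apply, LinearMap.smul_apply, Module.End.one_apply,
      eigA_line (ρ₀ σ₁) w₀ (hline σ₁ hσ₁), sub_self, smul_zero]
  refine ⟨?_, ?_⟩
  · apply LinearMap.ext
    intro x
    rw [Module.End.mul_apply, LinearMap.zero_apply, LinearMap.sub_apply (ρ₀ σ),
      Module.End.one_apply]
    exact hkill _ (eigAug_mem ρ₀ I hσ x)
  · apply LinearMap.ext
    intro x
    rw [Module.End.mul_apply, Module.End.mul_apply, LinearMap.zero_apply,
      LinearMap.sub_apply (ρ₀ σ₁) 1, Module.End.one_apply]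
    exact hkill _ (eigAug_stable I D ρ₀ hnorm hτ (eigAug_mem ρ₀ I hσ₁ x))

end Line

/-! ### Transport of "coinvariants vanish" along `Ψ` -/

section Transport

variable {K : Type*} [Field K] {G : Type*} [Group G]
  {n : Type*} [Fintype n] [DecidableEq n] {κ : Type*}
  (ρ₀ : G →* Module.End K (n → K)) (π : G →* Module.End K (κ → K)) (I : Subgroup G)
  (Ψ : Module.End K (n → K) →ₐ[K] Module.End K (κ → K))

theorem eigAug_eq_top_of_algHom (hΨ : ∀ g, Ψ (ρ₀ g) = π g) (htop : eigAug ρ₀ I = ⊤) :
    eigAug π I = ⊤ := by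
  classical
  set 𝔘 : Submodule K (Module.End K (n → K)) :=
    Submodule.span K {X | ∃ σ ∈ I, ∃ B : Module.End K (n → K), X = (ρ₀ σ - 1) * B} with h𝔘
  have h1 : ∀ w ∈ eigAug ρ₀ I, ∀ ℓ : (n → K) →ₗ[K] K, ℓ.smulRight w ∈ 𝔘 := by
    intro w hw ℓ
    induction hw using Submodule.span_induction with
    | mem x hx =>
      obtain ⟨σ, hσ, y, rfl⟩ := hx
      refine Submodule.subset_span ⟨σ, hσ, ℓ.smulRight y, ?_⟩
      apply LinearMap.ext
      intro z
      simp [LinearMap.smulRight_apply, Module.End.mul_apply, smul_sub]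
    | zero =>
      have : ℓ.smulRight (0 : n → K) = 0 := by
        apply LinearMap.ext
        intro z
        simp
      rw [this]
      exact zero_mem _
    | add x y _ _ hx hy =>
      have : ℓ.smulRight (x + y) = ℓ.smulRight x + ℓ.smulRight y := by
        apply LinearMap.ext
        intro z
        simp [smul_add]
      rw [this]
      exact add_mem hx hy
    | smul t x _ hx =>
      have : ℓ.smulRight (t • x) = t • ℓ.smulRight x := by
        apply LinearMap.ext
        intro z
        rw [LinearMap.smulRight_apply, LinearMap.smul_apply, LinearMap.smulRight_apply,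
          smul_comm]
      rw [this]
      exact Submodule.smul_mem _ _ hx
  have h2 : (1 : Module.End K (n → K)) ∈ 𝔘 := by
    have e : (1 : Module.End K (n → K))
        = ∑ j, (LinearMap.proj j : (n → K) →ₗ[K] K).smulRight (Pi.single j (1 : K)) := by
      apply LinearMap.ext
      intro z
      funext i
      simp [LinearMap.sum_apply, Finset.sum_apply, Pi.single_apply]
    rw [e]
    refine Submodule.sum_mem _ fun j _ => h1 _ ?_ _
    rw [htop]
    exact Submodule.mem_top
  have h3 : ∀ X ∈ 𝔘, ∀ z, Ψ X z ∈ eigAug π I := by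
    intro X hX z
    induction hX using Submodule.span_induction with
    | mem x hx =>
      obtain ⟨σ, hσ, B, rfl⟩ := hx
      rw [map_mul, map_sub, map_one, hΨ, Module.End.mul_apply, LinearMap.sub_apply,
        Module.End.one_apply]
      exact eigAug_mem π I hσ _
    | zero =>
      rw [map_zero, LinearMap.zero_apply]
      exact zero_mem _
    | add x y _ _ hx hy =>
      rw [map_add, LinearMap.add_apply]
      exact add_mem hx hy
    | smul t x _ hx =>
      rw [map_smul, LinearMap.smul_apply]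
      exact Submodule.smul_mem _ _ hx
  rw [eq_top_iff]
  intro z _
  have := h3 1 h2 z
  rwa [map_one, Module.End.one_apply] at this

end Transport

/-! ### Back to the lattice -/

section Sat

variable {O : Type*} [CommRing O] [IsDomain O]
  {M : Type*} [AddCommGroup M] [Module O M] {κ : Type*} [Fintype κ] [DecidableEq κ]
  (c : Module.Basis κ O M)

/-- Vectors of `K^κ` with a nonzero `O`-multiple in (the image of) `N`. -/
def eigSat (N : Submodule O M) : Submodule (FractionRing O) (κ → FractionRing O) where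
  carrier := {x | ∃ s : O, s ≠ 0 ∧ ∃ m ∈ N,
    algebraMap O (FractionRing O) s • x = embCoord (algebraMap O (FractionRing O)) c m}
  zero_mem' := ⟨1, one_ne_zero, 0, zero_mem _, by rw [smul_zero, map_zero]⟩
  add_mem' := by
    rintro x y ⟨s, hs, m, hm, hx⟩ ⟨t, ht, m', hm', hy⟩
    refine ⟨s * t, mul_ne_zero hs ht, t • m + s • m',
      add_mem (Submodule.smul_mem _ _ hm) (Submodule.smul_mem _ _ hm'), ?_⟩
    rw [map_add, embCoord_smul, embCoord_smul, ← hx, ← hy, smul_add, map_mul, smul_smul,
      smul_smul, mul_comm]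
  smul_mem' := by
    rintro k x ⟨s, hs, m, hm, hx⟩
    obtain ⟨a, t, ht, rfl⟩ := IsFractionRing.div_surjective (A := O) k
    have ht0 : t ≠ 0 := nonZeroDivisors.ne_zero ht
    have hιt : algebraMap O (FractionRing O) t ≠ 0 := by
      intro h0
      exact ht0 (IsFractionRing.injective O (FractionRing O) (by rw [h0, map_zero]))
    refine ⟨t * s, mul_ne_zero ht0 hs, a • m, Submodule.smul_mem _ _ hm, ?_⟩
    rw [embCoord_smul, ← hx, smul_smul, smul_smul, map_mul]
    congr 1
    field_simp

theorem eigSat_mem_iff (N : Submodule O M) (x : κ → FractionRing O) :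
    x ∈ eigSat c N ↔ ∃ s : O, s ≠ 0 ∧ ∃ m ∈ N,
      algebraMap O (FractionRing O) s • x = embCoord (algebraMap O (FractionRing O)) c m :=
  Iff.rfl

variable {G : Type*} [Group G] (ρM : G →* Module.End O M) (I : Subgroup G)

theorem eigAug_le_eigSat :
    eigAug (eigBase (algebraMap O (FractionRing O)) c ρM) I ≤ eigSat c (eigAug ρM I) := by
  classical
  rw [eigAug, Submodule.span_le]
  rintro x ⟨σ, hσ, z, rfl⟩
  have hz : z = ∑ i, z i • embCoord (algebraMap O (FractionRing O)) c (c i) := by
    funext j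
    simp [embCoord_basis, Finset.sum_apply, Pi.single_apply]
  have h1 : ∀ i, embEnd (algebraMap O (FractionRing O)) c (ρM σ)
      (embCoord (algebraMap O (FractionRing O)) c (c i))
      - embCoord (algebraMap O (FractionRing O)) c (c i) ∈ eigSat c (eigAug ρM I) := by
    intro i
    refine ⟨1, one_ne_zero, ρM σ (c i) - c i, eigAug_mem ρM I hσ _, ?_⟩
    rw [map_one, one_smul, embEnd_coord, map_sub]
  have h2 : (eigBase (algebraMap O (FractionRing O)) c ρM σ) z - z
      = ∑ i, z i • (embEnd (algebraMap O (FractionRing O)) c (ρM σ)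
        (embCoord (algebraMap O (FractionRing O)) c (c i))
        - embCoord (algebraMap O (FractionRing O)) c (c i)) := by
    rw [eigBase_apply]
    conv_lhs => rw [hz]
    rw [map_sum, ← Finset.sum_sub_distrib]
    refine Finset.sum_congr rfl fun i _ => ?_
    rw [map_smul, smul_sub]
  rw [SetLike.mem_coe, h2]
  exact Submodule.sum_mem _ fun i _ => Submodule.smul_mem _ _ (h1 i)

/-- If the augmentation submodule of `M ⊗ K` is everything, a nonzero multiple of `M` lies in the
augmentation submodule of `M`. -/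
theorem eigAug_exists_smul_mem
    (htop : eigAug (eigBase (algebraMap O (FractionRing O)) c ρM) I = ⊤) :
    ∃ a : O, a ≠ 0 ∧ ∀ m : M, a • m ∈ eigAug ρM I := by
  classical
  have hι : Function.Injective (algebraMap O (FractionRing O)) :=
    IsFractionRing.injective O (FractionRing O)
  have h1 : ∀ i, ∃ s : O, s ≠ 0 ∧ s • c i ∈ eigAug ρM I := by
    intro i
    have hmem : embCoord (algebraMap O (FractionRing O)) c (c i) ∈ eigSat c (eigAug ρM I) := by
      apply eigAug_le_eigSat c ρM I
      rw [htop]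
      exact Submodule.mem_top
    obtain ⟨s, hs, m, hm, hsm⟩ := hmem
    refine ⟨s, hs, ?_⟩
    rw [← embCoord_smul] at hsm
    rw [embCoord_injective _ c hι hsm]
    exact hm
  choose s hs hsm using h1
  refine ⟨∏ i, s i, Finset.prod_ne_zero_iff.mpr fun i _ => hs i, fun m => ?_⟩
  have hm : m = ∑ i, c.repr m i • c i := (c.sum_repr m).symm
  rw [hm, Finset.smul_sum]
  refine Submodule.sum_mem _ fun i _ => ?_
  rw [smul_comm]
  refine Submodule.smul_mem _ _ ?_
  rw [← Finset.mul_prod_erase Finset.univ s (Finset.mem_univ i), mul_comm, mul_smul]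
  exact Submodule.smul_mem _ _ (hsm i)

end Sat

/-! ### The main statement -/

section Main

variable {T : Type*} [CommRing T] {V : Type*} [AddCommGroup V] [Module T V]
  {G : Type*} [Group G] (ρ : G →* Module.End T V)
  {O : Type*} [CommRing O] [IsDomain O] (ψ : T →+* O)
  {M : Type*} [AddCommGroup M] [Module O M] {κ : Type*} [Fintype κ] [DecidableEq κ]
  (ρM : G →* Module.End O M) (dT : G →* T) (I D : Subgroup G)

/-- **EIG-A.**  Ordinary from non-vanishing coinvariants. -/
theorem eigA_ord [Nonempty κ] (b : Module.Basis (Fin 2) T V) (c : Module.Basis κ O M)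
    (h2 : (2 : O) ≠ 0)
    (hspan : Submodule.span T (Set.range ρ) = ⊤)
    (hdet : ∀ g, LinearMap.det (ρ g) = dT g)
    (hrel : ∀ g, ρM g * ρM g - ψ (LinearMap.trace T V (ρ g)) • ρM g
      + ψ (dT g) • (1 : Module.End O M) = 0)
    (hnorm : ∀ τ ∈ D, ∀ σ ∈ I, τ * σ * τ⁻¹ ∈ I)
    (hco : ¬ ∃ a : O, a ≠ 0 ∧ ∀ m : M, a • m ∈ eigAug ρM I)
    {σ₁ σ τ : G} (hσ₁ : σ₁ ∈ I) (hσ : σ ∈ I) (hτ : τ ∈ D) :
    (ρM σ₁ - ψ (dT σ₁) • (1 : Module.End O M)) * (ρM σ - 1) = 0 ∧
    (ρM σ₁ - ψ (dT σ₁) • (1 : Module.End O M)) * ρM τ * (ρM σ₁ - 1) = 0 := by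
  classical
  set K := FractionRing O with hK
  set ι : O →+* K := algebraMap O K with hιdef
  have hι : Function.Injective ι := IsFractionRing.injective O K
  set f : T →+* K := eigF ψ with hf
  set ρ₀ : G →* Module.End K (Fin 2 → K) := eigBase f b ρ with hρ₀
  set π : G →* Module.End K (κ → K) := eigBase ι c ρM with hπdef
  have hρ₀g : ∀ g, ρ₀ g = embEnd f b (ρ g) := fun g => rfl
  have hπg : ∀ g, π g = embEnd ι c (ρM g) := fun g => rfl
  obtain ⟨Ψ, hΨ⟩ := eigA_exists_algHom b ρ ψ c ρM dT h2 hspan hrel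
  have hW : eigAug ρ₀ I ≠ ⊤ := by
    intro htop
    apply hco
    apply eigAug_exists_smul_mem c ρM I
    exact eigAug_eq_top_of_algHom ρ₀ π I Ψ hΨ htop
  obtain ⟨e1, e2⟩ := eigA_identities ρ₀ I D hnorm hW hσ₁ hσ hτ
  have hd : LinearMap.det (ρ₀ σ₁) = ι (ψ (dT σ₁)) := by
    rw [hρ₀g, eigA_embEnd_det, hdet]
    rfl
  rw [hd] at e1 e2
  have hΨ' : ∀ g, Ψ (ρ₀ g) = embEnd ι c (ρM g) := hΨ
  have e1' := congrArg Ψ e1
  have e2' := congrArg Ψ e2
  rw [map_mul, map_sub, map_sub, map_smul, map_one, map_zero, hΨ', hΨ'] at e1'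
  rw [map_mul, map_mul, map_sub, map_sub, map_smul, map_one, map_zero, hΨ', hΨ'] at e2'
  refine ⟨?_, ?_⟩
  · apply eigA_embEnd_injective ι c hι
    rw [map_mul, map_sub, map_sub, embEnd_smul, map_one, map_zero]
    exact e1'
  · apply eigA_embEnd_injective ι c hι
    rw [map_mul, map_mul, map_sub, map_sub, embEnd_smul, map_one, map_zero]
    exact e2'

end Main

end Fermat.Agent.S33.H152
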