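/-
S33 / piece EIG-B, CORE (helper152): `(K) ⇒ GEO` on the Tate eigenmodule of `Hom_ℤ(𝒪, J)`.

* `eigB_devissage` (abstract dévissage): let `ℓ_j : Y → J` be equivariant additive maps with values
  in `𝒮⁺`; under `(K)` for `J`, every `y : Y` agrees in its first `i` coordinates with an element
  of the augmentation subgroup of `Y`.
* `homEigen_geoAt`: for the Tate eigenmodule `Λ` of `X = Hom_ℤ(𝒪, J)` (the adic eigenmodule of the
  landed chain of row S30) and any subgroup `I`, `KeyAt I p J` implies `GeoAt` for `Λ`: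
  if `a Λ ⊆ I_aug Λ` with `a ≠ 0`, then `I_aug Λ + 𝔪 Λ = Λ`.
  (Coordinates: evaluation of `v 0 ∈ Hom(𝒪, J[p])` at representatives of `𝒪 / p`; they lie in
  `I_aug J[p ^ (k + 1)] ∩ J[p]` because `v 0 = (p ^ k v) k` and `p ^ k v ∈ I_aug Λ`.)
-/
import Fermat.Agent.S33.Spec2
import Fermat.Agent.S30.H529.HomTate

set_option autoImplicit false
set_option linter.unusedSectionVars false

noncomputable section

namespace Fermat.Agent.S33.H152

open IsLocalRing Fermat.Agent.S30 Fermat.Agent.S31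

/-! ### The abstract dévissage -/

section Devissage

variable {G : Type*} [Group G] {J : Type*} [AddCommGroup J] [DistribMulAction G J]

theorem eigB_devissage (I : Subgroup G) (p : ℕ) (hK : KeyAt I p J)
    {Y : Type*} [AddCommGroup Y] (act : G → Y →+ Y) (ℓ : ℕ → Y →+ J)
    (heq : ∀ (j : ℕ) (σ : G) (y : Y), ℓ j (act σ y) = σ • ℓ j y)
    (hP : ∀ (j : ℕ) (y : Y), InSPlus I p (ℓ j y)) (i : ℕ) (y : Y) :
    ∃ u ∈ AddSubgroup.closure {z : Y | ∃ σ ∈ I, ∃ y' : Y, z = act σ y' - y'},
      ∀ j < i, ℓ j y = ℓ j u := by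
  induction i generalizing y with
  | zero => exact ⟨0, zero_mem _, fun j hj => absurd hj (Nat.not_lt_zero j)⟩
  | succ i ih =>
    obtain ⟨u₁, hu₁, hu₁y⟩ := ih y
    -- the subgroup of elements with vanishing first `i` coordinates
    let F : AddSubgroup Y :=
      { carrier := {f | ∀ j < i, ℓ j f = 0}
        zero_mem' := fun j _ => map_zero _
        add_mem' := fun {a b} ha hb j hj => by rw [map_add, ha j hj, hb j hj, add_zero]
        neg_mem' := fun {a} ha j hj => by rw [map_neg, ha j hj, neg_zero] }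
    have hFmem : ∀ f, f ∈ F ↔ ∀ j < i, ℓ j f = 0 := fun f => Iff.rfl
    have hFact : ∀ (σ : G) (f : Y), f ∈ F → act σ f ∈ F := by
      intro σ f hf j hj
      rw [heq, hf j hj, smul_zero]
    let Z : AddSubgroup J := F.map (ℓ i)
    have hZst : ∀ (σ : G), ∀ z ∈ Z, σ • z ∈ Z := by
      rintro σ z ⟨f, hf, rfl⟩
      exact ⟨act σ f, hFact σ f hf, heq i σ f⟩
    have hZP : ∀ z ∈ Z, InSPlus I p z := by
      rintro z ⟨f, -, rfl⟩
      exact hP i f
    have hZ := hK Z hZst hZP
    have hlift : ∀ w ∈ iAug I Z, ∃ u' ∈ AddSubgroup.closure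
        {z : Y | ∃ σ ∈ I, ∃ y' : Y, z = act σ y' - y'}, u' ∈ F ∧ ℓ i u' = w := by
      intro w hw
      induction hw using AddSubgroup.closure_induction with
      | mem x hx =>
        obtain ⟨σ, hσ, z, ⟨f, hf, rfl⟩, rfl⟩ := hx
        refine ⟨act σ f - f, AddSubgroup.subset_closure ⟨σ, hσ, f, rfl⟩,
          sub_mem (hFact σ f hf) hf, ?_⟩
        rw [map_sub, heq]
      | zero => exact ⟨0, zero_mem _, zero_mem _, map_zero _⟩
      | add a b _ _ ha hb =>
        obtain ⟨ua, hua, hFa, rfl⟩ := ha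
        obtain ⟨ub, hub, hFb, rfl⟩ := hb
        exact ⟨ua + ub, add_mem hua hub, add_mem hFa hFb, map_add _ _ _⟩
      | neg a _ ha =>
        obtain ⟨ua, hua, hFa, rfl⟩ := ha
        exact ⟨-ua, neg_mem hua, neg_mem hFa, map_neg _ _⟩
    have hy₁ : y - u₁ ∈ F := by
      intro j hj
      rw [map_sub, hu₁y j hj, sub_self]
    obtain ⟨u', hu', hFu', hu'w⟩ := hlift (ℓ i (y - u₁)) (hZ ⟨y - u₁, hy₁, rfl⟩)
    refine ⟨u₁ + u', add_mem hu₁ hu', fun j hj => ?_⟩
    rcases Nat.lt_succ_iff_lt_or_eq.mp hj with hj' | rfl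
    · rw [map_add, hFu' j hj', add_zero]
      exact hu₁y j hj'
    · rw [map_add, hu'w, map_sub]
      abel

end Devissage

/-! ### Representatives modulo a nonzero element -/

section RepsB

variable {O : Type} [CommRing O] [IsDomain O] [IsDiscreteValuationRing O]
  [Finite (ResidueField O)]

theorem eigB_exists_reps {x : O} (hx : x ≠ 0) :
    ∃ (r : ℕ) (o : ℕ → O), ∀ b : O, ∃ i < r, ∃ d : O, b = o i + x * d := by
  obtain ⟨n, hn⟩ := H529.exists_pow_maximalIdeal_le_span hx
  have h1 : Finite (O ⧸ maximalIdeal O ^ n) := by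
    have : Finite (O ⧸ maximalIdeal O) := (inferInstance : Finite (ResidueField O))
    exact Ideal.finite_quotient_pow (IsNoetherian.noetherian _) n
  have h2 : Finite (O ⧸ Ideal.span {x}) :=
    Finite.of_surjective (Ideal.Quotient.factor hn) (Ideal.Quotient.factor_surjective hn)
  let e := Finite.equivFin (O ⧸ Ideal.span {x})
  refine ⟨Nat.card (O ⧸ Ideal.span {x}),
    fun i => if h : i < Nat.card (O ⧸ Ideal.span {x}) then
      Function.surjInv Ideal.Quotient.mk_surjective (e.symm ⟨i, h⟩) else 0, fun b => ?_⟩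
  refine ⟨(e (Ideal.Quotient.mk _ b) : ℕ), (e (Ideal.Quotient.mk _ b)).2, ?_⟩
  show ∃ d : O, b = (if h : ((e (Ideal.Quotient.mk _ b) : Fin _) : ℕ)
      < Nat.card (O ⧸ Ideal.span {x}) then
      Function.surjInv Ideal.Quotient.mk_surjective
        (e.symm ⟨((e (Ideal.Quotient.mk _ b) : Fin _) : ℕ), h⟩) else 0) + x * d
  rw [dif_pos (e (Ideal.Quotient.mk _ b)).2]
  have h3 : Ideal.Quotient.mk (Ideal.span {x})
      (Function.surjInv Ideal.Quotient.mk_surjective (e.symm (e (Ideal.Quotient.mk _ b)))) =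
      Ideal.Quotient.mk _ b :=
    (Function.surjInv_eq Ideal.Quotient.mk_surjective _).trans (e.symm_apply_apply _)
  have h4 : b - Function.surjInv Ideal.Quotient.mk_surjective
      (e.symm (e (Ideal.Quotient.mk (Ideal.span {x}) b))) ∈ Ideal.span {x} := by
    rw [← Ideal.Quotient.eq_zero_iff_mem, map_sub, h3, sub_self]
  obtain ⟨d, hd⟩ := Ideal.mem_span_singleton'.mp h4
  exact ⟨d, by rw [mul_comm, hd]; ring⟩

end RepsB

/-! ### GEO for the Tate eigenmodule of `Hom_ℤ(𝒪, J)` -/

section GeoHom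

variable (p : ℕ)
variable (O : Type) [CommRing O] [IsDomain O] [IsDiscreteValuationRing O]
  [Finite (ResidueField O)]
variable (J : Type) [AddCommGroup J] [DistribMulAction GQ J]
variable {ι : Type} (t : ι → J →+ J) (a : ι → O)

/-- **EIG-B, CORE.**  `(K)` for `(I, p, J)` implies GEO for the Tate eigenmodule of
`Hom_ℤ(𝒪, J)`. -/
theorem homEigen_geoAt (hp0 : (p : O) ≠ 0) (hpO : (p : O) ∈ maximalIdeal O)
    (hρ : ∀ (σ : GQ) (i : ι) (h : H529.PreHom O J),
      H529.preHomRep O J σ (H529.PreHom.post (t i) h)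
        = H529.PreHom.post (t i) (H529.preHomRep O J σ h))
    (I : Subgroup GQ) (hK : KeyAt I p J) :
    GeoAt (H529.tateRep (ϖ := (p : O)) (t := fun i => H529.PreHom.post (t i)) (a := a)
      (H529.preHomRep O J) hρ) I := by
  intro a₀ ha₀ hsub
  set Λ := ↥(H529.tateEigen (p : O) (fun i => H529.PreHom.post (t i)) a) with hΛ
  set ρΛ := H529.tateRep (ϖ := (p : O)) (t := fun i => H529.PreHom.post (t i)) (a := a)
      (H529.preHomRep O J) hρ with hρΛ
  -- a power of `p` kills the coinvariants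
  obtain ⟨k, c, hc⟩ := H529.exists_dvd_pow_of_mem_maximalIdeal hpO ha₀
  have hpk : ∀ m : Λ, (p : O) ^ k • m ∈ augSpan ρΛ I := by
    intro m
    rw [hc, mul_comm, mul_smul]
    exact Submodule.smul_mem _ _ (hsub m)
  -- values of the `k`-th component of elements of the augmentation submodule
  have haug : ∀ w ∈ augSpan ρΛ I, ∀ x : O,
      H529.PreHom.toHom ((w : ℕ → H529.PreHom O J) k) x ∈ iAug I (torsSub J (p ^ (k + 1))) := by
    intro w hw
    induction hw using Submodule.span_induction with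
    | mem w hw =>
      obtain ⟨σ, hσ, m, rfl⟩ := hw
      intro x
      refine AddSubgroup.subset_closure
        ⟨σ, hσ, H529.PreHom.toHom ((m : ℕ → H529.PreHom O J) k) x, ?_, rfl⟩
      show p ^ (k + 1) • H529.PreHom.toHom ((m : ℕ → H529.PreHom O J) k) x = 0
      rw [← H529.PreHom.natCast_pow_smul_apply, H529.tate_pow_succ_smul m.2 k]
      rfl
    | zero =>
      intro x
      exact zero_mem _
    | add w w' _ _ hw hw' =>
      intro x
      exact add_mem (hw x) (hw' x)
    | smul b w _ hw =>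
      intro x
      exact hw (b * x)
  -- coordinates
  obtain ⟨r, o, ho⟩ := eigB_exists_reps hp0
  let ev : O → Λ →+ J := fun x =>
    { toFun := fun v => H529.PreHom.toHom ((v : ℕ → H529.PreHom O J) 0) x
      map_zero' := rfl
      map_add' := fun _ _ => rfl }
  have hev : ∀ (x : O) (v : Λ),
      ev x v = H529.PreHom.toHom ((v : ℕ → H529.PreHom O J) 0) x := fun _ _ => rfl
  have hP : ∀ (x : O) (v : Λ), InSPlus I p (ev x v) := by
    intro x v
    refine ⟨?_, k + 1, ?_⟩
    · rw [hev, ← H529.PreHom.natCast_smul_apply, v.2.1]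
      rfl
    · have h1 : (v : ℕ → H529.PreHom O J) 0
          = ((((p : O) ^ k • v : Λ)) : ℕ → H529.PreHom O J) k := by
        have h2 := H529.tate_pow_smul v.2 k 0
        rw [zero_add] at h2
        exact h2.symm
      rw [hev, h1]
      exact haug _ (hpk v) x
  have heq : ∀ (x : O) (σ : GQ) (v : Λ), ev x (ρΛ σ v) = σ • ev x v := fun _ _ _ => rfl
  rw [eq_top_iff]
  intro v _
  obtain ⟨u, hu, huv⟩ := eigB_devissage I p hK (fun σ => (ρΛ σ).toAddMonoidHom)
    (fun j => ev (o j)) (fun j σ y => heq (o j) σ y) (fun j y => hP (o j) y) r v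
  have hu' : u ∈ augSpan ρΛ I := by
    have hle : AddSubgroup.closure {z : Λ | ∃ σ ∈ I, ∃ y' : Λ,
        z = (ρΛ σ).toAddMonoidHom y' - y'} ≤ (augSpan ρΛ I).toAddSubgroup := by
      rw [AddSubgroup.closure_le]
      rintro z ⟨σ, hσ, y', rfl⟩
      exact Submodule.subset_span ⟨σ, hσ, y', rfl⟩
    exact hle hu
  have hker : v - u ∈ LinearMap.ker (H529.tateEval (p : O)
      (fun i => H529.PreHom.post (t i)) a 0) := by
    rw [LinearMap.mem_ker, H529.tateEval_apply]
    apply H529.PreHom.ext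
    intro x
    obtain ⟨i, hi, d, hd⟩ := ho x
    have h1 : H529.PreHom.toHom (((v - u : Λ) : ℕ → H529.PreHom O J) 0) (o i) = 0 := by
      have := huv i hi
      rw [hev, hev] at this
      show H529.PreHom.toHom ((v : ℕ → H529.PreHom O J) 0) (o i)
        - H529.PreHom.toHom ((u : ℕ → H529.PreHom O J) 0) (o i) = 0
      rw [this, sub_self]
    have h2 : H529.PreHom.toHom (((v - u : Λ) : ℕ → H529.PreHom O J) 0) ((p : O) * d) = 0 := by
      rw [← H529.PreHom.smul_apply, (v - u).2.1]
      rfl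
    rw [hd, map_add, h1, h2, add_zero]
    rfl
  have h𝔪 := H529.tateEval_zero_ker_le (t := fun i => H529.PreHom.post (t i)) (a := a) hpO hker
  have hv : v = u + (v - u) := by abel
  rw [hv]
  exact Submodule.add_mem_sup hu' h𝔪

end GeoHom

end Fermat.Agent.S33.H152
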