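/-
S33 / piece EIG-B, WIRING (helper152): `geoEigenStatement_of_key : KeyStatement → GeoEigenStatement`.

The adic eigenmodule is the one of the landed chain of row S30 (Tate eigenmodule of
`X = Hom_ℤ(𝒪, J₀(N))` attached to an eigen-homomorphism `Frac 𝒪 / 𝒪 → J₀(N)`), exactly as in
`Fermat/Agent/S32/EigChain.lean` / `OfS19.lean` (helper32), with the conclusion `IsFlatMod`
replaced by GEO (`homEigen_geoAt`, `EigB.lean`).

* `exists_geo_homEigenmodule` : `S30.H529.adicModule_of_torsion` with the additional conclusion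
  `∀ I, KeyAt I p J → GeoAt ρ I`;
* `geoEigenStatement_of_chain` : EIG-B from (K'), (F), (T) of the adic module layer of row S30;
* `geoEigenStatement_of_key` : EIG-B, all inputs from main.
-/
import Fermat.Agent.S33.H152.EigB
import Fermat.Agent.S30.H330.AdicChain
import Fermat.Agent.S30.Chain.FromT
import Fermat.Agent.S30.H694.TorsionRelOfNodes
import Fermat.Agent.S18.Mod.H216.NodeMod
import Fermat.Agent.S18.H438.NodeAlg
import Fermat.Prelude.Def_ModularCurve_HeckeModule

set_option autoImplicit false

noncomputable section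

namespace Fermat.Agent.S33.H152

open IsLocalRing Fermat.Agent.S30 Fermat.Agent.S31

section MainHomB

/-- `S30.H529.adicModule_of_torsion` with the additional conclusion GEO (under `(K)`). -/
theorem exists_geo_homEigenmodule
    {p : ℕ} (hp : p.Prime)
    {O : Type} [CommRing O] [IsDomain O] [IsDiscreteValuationRing O]
    [IsAdicComplete (IsLocalRing.maximalIdeal O) O] [Finite (IsLocalRing.ResidueField O)]
    [CharZero O] (hpO : (p : O) ∈ IsLocalRing.maximalIdeal O)
    {J : Type} [AddCommGroup J] [DistribMulAction GQ J]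
    (hsm : ∀ x : J, ∃ L : IntermediateField ℚ (AlgebraicClosure ℚ), FiniteDimensional ℚ L ∧
      ∀ σ : GQ, (∀ y ∈ L, σ y = y) → σ • x = x)
    (hfin : {x : J | p • x = 0}.Finite)
    {ι : Type} (t : ι → J →+ J) (ht : ∀ i (σ : GQ) (x : J), σ • t i x = t i (σ • x))
    (a : ι → O)
    (f : FractionRing O →+ J) (hf0 : ∀ r : O, f (algebraMap O (FractionRing O) r) = 0)
    (hf : f ≠ 0)
    (hfe : ∀ i x, t i (f x) = f (algebraMap O (FractionRing O) (a i) * x)) :
    ∃ (M : Type) (_ : AddCommGroup M) (_ : Module O M) (_ : Module.Free O M)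
      (_ : Module.Finite O M) (ρ : GQ →* Module.End O M),
      Nontrivial M ∧ GaloisActionIsAdicContinuous O ρ ∧
      (∀ σ : GQ, (∀ x : J, (∃ n : ℕ, p ^ n • x = 0) → σ • x = x) → ρ σ = 1) ∧
      (∀ (i : ι) (n : ℕ) (σ : GQ),
        (∀ x : J, (∃ k : ℕ, p ^ k • x = 0) → σ • σ • x - t i (σ • x) + n • x = 0) →
        ρ σ * ρ σ - a i • ρ σ + (n : O) • (1 : Module.End O M) = 0) ∧
      ∀ I : Subgroup GQ, KeyAt I p J → GeoAt ρ I := by
  have : Fact p.Prime := ⟨hp⟩
  have hϖ0 : (p : O) ≠ 0 := by exact_mod_cast hp.ne_zero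
  have hpL : algebraMap O (FractionRing O) (p : O) ≠ 0 := by
    intro h
    exact hϖ0 ((IsFractionRing.injective O (FractionRing O)) (by rw [h, map_zero]))
  -- operators
  set t' : ι → H529.PreHom O J →ₗ[O] H529.PreHom O J := fun i => H529.PreHom.post (t i) with ht'
  have hρ : ∀ (σ : GQ) (i : ι) (h : H529.PreHom O J),
      H529.preHomRep O J σ (t' i h) = t' i (H529.preHomRep O J σ h) := by
    intro σ i h
    apply H529.PreHom.ext
    intro x
    simp only [ht', H529.preHomRep_apply, H529.PreHom.post_apply]
    exact ht i σ _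
  -- finiteness
  have hX : ∃ Y : Submodule O (H529.PreHom O J), Y.FG ∧
      ∀ h : H529.PreHom O J, (p : O) • h = 0 → h ∈ Y := by
    have hfinX := H529.preHom_torsion_finite (O := O) (J := J) p hϖ0 hfin
    exact ⟨Submodule.span O {h : H529.PreHom O J | (p : O) • h = 0},
      Submodule.fg_span hfinX, fun h hh => Submodule.subset_span hh⟩
  have hfree := H529.tateEigen_free (t := t') (a := a) hpO hϖ0 hX
  have hfinite := H529.tateEigen_finite (t := t') (a := a) hpO hϖ0 hX
  -- torsion values
  have hval : ∀ (k : ℕ) (h : H529.PreHom O J), (p : O) ^ k • h = 0 →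
      ∀ x : O, p ^ k • H529.PreHom.toHom h x = 0 := by
    intro k h hh x
    rw [← H529.PreHom.natCast_pow_smul_apply, hh]
    rfl
  refine ⟨H529.tateEigen (p : O) t' a, inferInstance, inferInstance, hfree, hfinite,
    H529.tateRep (H529.preHomRep O J) hρ, ?_, ?_, ?_, ?_,
    fun I hK => homEigen_geoAt p O J t a hϖ0 hpO hρ I hK⟩
  · -- nontrivial
    have hmem : H529.seqOfHom p f ∈ H529.tateEigen (p : O) t' a := by
      refine ⟨?_, ?_, ?_⟩
      · apply H529.PreHom.ext
        intro x
        rw [H529.PreHom.smul_apply, H529.seqOfHom_apply,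
          (algebraMap O (FractionRing O)).map_mul]
        have : algebraMap O (FractionRing O) (p : O) * algebraMap O (FractionRing O) x
            * (algebraMap O (FractionRing O) (p : O) ^ (0 + 1))⁻¹
            = algebraMap O (FractionRing O) x := by
          field_simp
          ring
        rw [this, hf0]
        rfl
      · intro n
        apply H529.PreHom.ext
        intro x
        rw [H529.PreHom.smul_apply, H529.seqOfHom_apply, H529.seqOfHom_apply,
          (algebraMap O (FractionRing O)).map_mul]
        congr 1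
        field_simp
        ring
      · intro i n
        apply H529.PreHom.ext
        intro x
        rw [H529.PreHom.smul_apply, H529.seqOfHom_apply]
        simp only [ht', H529.PreHom.post_apply]
        rw [H529.seqOfHom_apply, hfe, (algebraMap O (FractionRing O)).map_mul, mul_assoc]
    have hne : H529.seqOfHom p f ≠ 0 := by
      intro h0
      apply hf
      apply AddMonoidHom.ext
      intro y
      obtain ⟨x, s, hs, rfl⟩ := IsFractionRing.div_surjective (A := O) y
      have hs0 : s ≠ 0 := nonZeroDivisors.ne_zero hs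
      obtain ⟨k, c, hc⟩ := H529.exists_dvd_pow_of_mem_maximalIdeal hpO hs0
      have h1 := congrArg (fun h => H529.PreHom.toHom h (x * c * (p : O))) (congrFun h0 k)
      simp only [H529.seqOfHom_apply] at h1
      have hsL : algebraMap O (FractionRing O) s ≠ 0 := by
        intro h
        exact hs0 ((IsFractionRing.injective O (FractionRing O)) (by rw [h, map_zero]))
      have h2 : algebraMap O (FractionRing O) (x * c * (p : O))
          * (algebraMap O (FractionRing O) (p : O) ^ (k + 1))⁻¹
          = algebraMap O (FractionRing O) x / algebraMap O (FractionRing O) s := by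
        have h3 : algebraMap O (FractionRing O) (p : O) ^ k
            = algebraMap O (FractionRing O) s * algebraMap O (FractionRing O) c := by
          rw [← map_pow, hc, map_mul]
        rw [pow_succ, h3, (algebraMap O (FractionRing O)).map_mul,
          (algebraMap O (FractionRing O)).map_mul]
        have hcL : algebraMap O (FractionRing O) c ≠ 0 := by
          intro h
          rw [h, mul_zero] at h3
          exact hpL (pow_eq_zero_iff (by
            intro hk
            subst hk
            simp at h3) |>.mp h3)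
        field_simp
      rw [h2] at h1
      rw [h1]
      rfl
    refine ⟨⟨⟨H529.seqOfHom p f, hmem⟩, 0, ?_⟩⟩
    intro h
    exact hne (congrArg Subtype.val h)
  · -- continuity
    intro n
    obtain ⟨L, hL, hLfix⟩ := H529.exists_common_level {x : J | p ^ n • x = 0}
      (H529.finite_torsion_pow J p hfin n) (fun x _ => hsm x)
    refine ⟨L, hL, fun σ hσ m => ?_⟩
    apply H529.tateRep_sub_mem (H529.preHomRep O J) hρ hpO n σ
    intro h hh
    apply H529.PreHom.ext
    intro x
    rw [H529.preHomRep_apply]
    exact hLfix σ hσ _ (hval n h hh x)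
  · -- trivial action
    intro σ hσ
    apply H529.tateRep_eq_one
    rintro h ⟨k, hh⟩
    apply H529.PreHom.ext
    intro x
    rw [H529.preHomRep_apply]
    exact hσ _ ⟨k, hval k h hh x⟩
  · -- quadratic relations
    intro i n σ hσ
    apply H529.tateRep_quadratic
    rintro h ⟨k, hh⟩
    apply H529.PreHom.ext
    intro x
    have h1 := hσ (H529.PreHom.toHom h x) ⟨k, hval k h hh x⟩
    simp only [ht', H529.PreHom.toHom_add, H529.PreHom.toHom_sub, AddMonoidHom.add_apply,
      AddMonoidHom.sub_apply, H529.preHomRep_apply, H529.PreHom.post_apply,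
      H529.PreHom.natCast_smul_apply, H529.PreHom.toHom_zero, AddMonoidHom.zero_apply]
    exact h1

end MainHomB

/-! ### EIG-B from the inputs of the adic module layer of row S30 -/

section ChainB

open Fermat.Agent.S30.H990 (AdicEigenModule)
open Fermat.Agent.S30.H330

/-- **EIG-B** from `(K)` and the inputs (K'), (F), (T) of the adic module layer of row S30. -/
theorem geoEigenStatement_of_chain (hKey : KeyStatement)
    (hK : ∀ (N : ℕ) [NeZero N] (p : ℕ) [Fact p.Prime], KummerInjStatement N p)
    (hF : ∀ (N : ℕ) [NeZero N] (p : ℕ) [Fact p.Prime], FinStatement N p)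
    (hT : ∀ (N : ℕ) [NeZero N] (p : ℕ) [Fact p.Prime], TorsionRelations N p) :
    GeoEigenStatement := by
  intro p _ hp2 N _ S hN hNS 𝒪' _ _ _ _ _ _ hp𝒪' χ
  classical
  have hp : p.Prime := Fact.out
  have hpS : p ∈ S := hNS p hp hN.1
  obtain ⟨f, hf0, hf, hfe⟩ :=
    exists_eigenHom_of_inj hpS hNS hp𝒪' χ (hK N p) (parEigenStatement hNS χ)
  have hSm := Fermat.Agent.S30.H990.smoothStatement N
  have hGH := Fermat.Agent.S30.H990.galoisHeckeStatement N
  obtain ⟨M, j1, j2, j3, j4, ρ, hnt, hcont, hunr, hquad, hgeo⟩ :=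
    exists_geo_homEigenmodule (O := 𝒪') hp hp𝒪' (J := ModularCurve.JZero N)
      (fun x => hSm x) (hF N p)
      (ι := {ℓ : Nat.Primes // (ℓ : ℕ) ∉ S})
      (fun i => (ModularCurve.heckeOperatorBar N i.1).toAddMonoidHom)
      (fun i σ x => hGH σ i.1 x)
      (fun i => eigenvalue χ (i.1 : ℕ)) f hf0 hf (fun i x => hfe i.1 i.2 x)
  have hdvd : ∀ q : ℕ, q.Prime → ¬ q ∣ N → q ≠ p → ¬ q ∣ N * p := by
    intro q hq hqN hqp hdiv
    rcases (Nat.Prime.dvd_mul hq).1 hdiv with h1 | h1
    · exact hqN h1
    · exact hqp ((Nat.prime_dvd_prime_iff_eq hq hp).1 h1)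
  exact ⟨{ M := M
           ρ := ρ
           cont := hcont
           unram := fun q hq hqN hqp P hP σ hσ =>
             hunr σ fun x hx => (hT N p q hq (hdvd q hq hqN hqp) P hP).1 σ hσ x hx
           frob := fun ℓ hℓ hℓN hℓS A hA σ hσ => by
             have hℓS' : ℓ ∉ S := fun hmem => hℓS (Finset.mem_coe.mpr hmem)
             have hℓp : ℓ ≠ p := fun h => hℓS' (h ▸ hpS)
             have h1 := hquad ⟨⟨ℓ, hℓ⟩, hℓS'⟩ ℓ σ
               fun x hx => (hT N p ℓ hℓ (hdvd ℓ hℓ hℓN hℓp) A hA).2 σ hσ x hx
             have h2 : eigenvalue χ ℓ = χ (CuspForm.heckeAlgebra.T hℓ hℓN hℓS) := by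
               unfold eigenvalue
               rw [dif_pos ⟨hℓ, hℓN, hℓS⟩]
             rw [← h2]
             exact h1 },
    fun P hP => hgeo _ (hKey p N hp hp2 hN.1 hN.2 P hP)⟩

/-- **EIG-B** (`KeyStatement → GeoEigenStatement`), all other inputs from main. -/
theorem geoEigenStatement_of_key (hKey : KeyStatement) : GeoEigenStatement :=
  geoEigenStatement_of_chain hKey
    (fun N _ p hp =>
      haveI : NeZero p := ⟨hp.out.ne_zero⟩
      Fermat.Agent.S30.H330.kummerInjStatement_of_packages (fun n =>
        haveI : NeZero (p ^ n) := ⟨pow_ne_zero n hp.out.ne_zero⟩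
        Fermat.Agent.S30.Chain.kumPackage N (p ^ n)))
    (fun N _ p hp =>
      haveI : NeZero p := ⟨hp.out.ne_zero⟩
      Fermat.Agent.S30.H330.finStatement_of_onto
        (Fermat.Agent.S30.Chain.kumPackage N p).uniq
        (fun _ hx => Fermat.Agent.S30.H810.exists_isKum_of_torsion N p hx))
    (Fermat.Agent.S30.H694.torsionRelations_of_nodes
      (fun M _ _ _ hℓM A hA => Fermat.Agent.S18.Mod.H216.node_mod M hℓM A hA)
      (fun M => Fermat.Agent.S18.H438.node_alg M))

end ChainB

end Fermat.Agent.S33.H152
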